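import Fermat.Agent.PicScheme.Basic
import Fermat.Agent.PicScheme.Atlas

/-!
# Matrices over the base change of an algebra to localisations

Lifting and vanishing of entries of matrices over `Localization.Away t ⊗ B`, gluing of matrices, and
block matrices assembled from lifted transition matrices.
-/

set_option autoImplicit false
set_option linter.unusedSectionVars false

noncomputable section

universe u

open TensorProduct Matrix Filter

namespace FLTAgent.PicScheme

variable {k : Type u} [Field k] {A A' A'' B : Type u} [CommRing A] [Algebra k A] [CommRing A']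
  [Algebra k A'] [CommRing A''] [Algebra k A''] [CommRing B] [Algebra k B]

theorem chartMap_smul (φ : A →ₐ[k] A') (a : A) (y : A ⊗[k] B) :
    Datum.chartMap B φ (a • y) = φ a • Datum.chartMap B φ y := by
  induction y using TensorProduct.induction_on with
  | zero => simp
  | tmul p q => simp [TensorProduct.smul_tmul', Datum.chartMap]
  | add p q hp hq => simp [smul_add, hp, hq]

theorem map_chartMap_smul {l m : Type*} (φ : A →ₐ[k] A') (a : A) (M : Matrix l m (A ⊗[k] B)) :
    (a • M).map (Datum.chartMap B φ) = φ a • M.map (Datum.chartMap B φ) :=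
  Matrix.ext fun i j => chartMap_smul φ a (M i j)

theorem map_chartMap_comp {l m : Type*} (f : A →ₐ[k] A') (g : A' →ₐ[k] A'')
    (M : Matrix l m (A ⊗[k] B)) :
    (M.map (Datum.chartMap B f)).map (Datum.chartMap B g) = M.map (Datum.chartMap B (g.comp f)) := by
  rw [Datum.chartMap_comp, Matrix.map_map]
  rfl

/-- The map out of a localisation at an element which becomes a unit. -/
def awayTo {t : A} (φ : A →ₐ[k] A') (h : IsUnit (φ t)) : Localization.Away t →ₐ[k] A' :=
  { IsLocalization.Away.lift (S := Localization.Away t) t (g := φ.toRingHom) h with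
    commutes' := fun z => by
      rw [IsScalarTower.algebraMap_apply k A (Localization.Away t)]
      exact (IsLocalization.Away.lift_eq t h _).trans (φ.commutes z) }

theorem awayTo_comp {t : A} (φ : A →ₐ[k] A') (h : IsUnit (φ t)) :
    (awayTo φ h).comp (toAway k t) = φ :=
  AlgHom.ext fun z => IsLocalization.Away.lift_eq t (g := φ.toRingHom) h z

theorem away_ext {t : A} {f g : Localization.Away t →ₐ[k] A'}
    (h : f.comp (toAway k t) = g.comp (toAway k t)) : f = g :=
  AlgHom.coe_ringHom_injective
    (IsLocalization.ringHom_ext (Submonoid.powers t) (congrArg AlgHom.toRingHom h))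

theorem isUnit_toAway_of_dvd {r t : A} (h : r ∣ t) : IsUnit (toAway k t r) :=
  isUnit_of_dvd_unit (map_dvd (toAway k t) h)
    (IsLocalization.map_units (Localization.Away t) (⟨t, 1, pow_one t⟩ : Submonoid.powers t))

/-- The map of localisations at elements dividing each other. -/
def awayLE {r t : A} (h : r ∣ t) : Localization.Away r →ₐ[k] Localization.Away t :=
  awayTo (toAway k t) (isUnit_toAway_of_dvd h)

theorem awayLE_comp {r t : A} (h : r ∣ t) : (awayLE (k := k) h).comp (toAway k r) = toAway k t :=
  awayTo_comp _ _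

theorem exists_pow_smul_eq_image (t : A) (x : Localization.Away t ⊗[k] B) :
    ∀ᶠ N in atTop, ∃ y : A ⊗[k] B,
      Datum.chartMap B (toAway k t) y = toAway k t (t ^ N) • x := by
  induction x using TensorProduct.induction_on with
  | zero => exact Eventually.of_forall fun N => ⟨0, by simp⟩
  | tmul s b =>
    obtain ⟨⟨a, ⟨_, N₀, rfl⟩⟩, hs⟩ := IsLocalization.surj (Submonoid.powers t) s
    refine eventually_atTop.2 ⟨N₀, fun N hN => ⟨(t ^ (N - N₀) * a) ⊗ₜ b, ?_⟩⟩
    rw [TensorProduct.smul_tmul', smul_eq_mul, show toAway k t (t ^ N) * s =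
      toAway k t (t ^ (N - N₀) * a) from ?_]
    · simp [Datum.chartMap]
    · obtain ⟨d, rfl⟩ := Nat.exists_eq_add_of_le hN
      rw [map_mul, show toAway k t a = s * toAway k t (t ^ N₀) from hs.symm, Nat.add_sub_cancel_left,
        pow_add, map_mul]
      ring
  | add p q hp hq =>
    filter_upwards [hp, hq] with N h₁ h₂
    obtain ⟨y₁, h₁⟩ := h₁
    obtain ⟨y₂, h₂⟩ := h₂
    exact ⟨y₁ + y₂, by rw [map_add, h₁, h₂, smul_add]⟩

theorem coord_chartMap {ι : Type*} [DecidableEq ι] (b : Module.Basis ι k B) (φ : A →ₐ[k] A')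
    (y : A ⊗[k] B) (i : ι) :
    TensorProduct.equivFinsuppOfBasisRight b (Datum.chartMap B φ y) i =
      φ (TensorProduct.equivFinsuppOfBasisRight b y i) := by
  induction y using TensorProduct.induction_on with
  | zero => simp
  | tmul p q => simp [Datum.chartMap]
  | add p q hp hq => simp [hp, hq]

theorem eventually_pow_smul_eq_zero (t : A) (y : A ⊗[k] B)
    (h : Datum.chartMap B (toAway k t) y = 0) : ∀ᶠ M in atTop, t ^ M • y = 0 := by
  classical
  let b := Module.Basis.ofVectorSpace k B
  set e := TensorProduct.equivFinsuppOfBasisRight (M := A) b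
  have hi : ∀ i, ∀ᶠ M in atTop, t ^ M * e y i = 0 := fun i => by
    have h1 : algebraMap A (Localization.Away t) (e y i) = 0 := by
      have h2 := coord_chartMap b (toAway k t) y i
      rw [h, map_zero] at h2
      exact h2.symm
    obtain ⟨⟨_, M₀, rfl⟩, hM₀⟩ :=
      (IsLocalization.map_eq_zero_iff (Submonoid.powers t) (Localization.Away t) _).1 h1
    refine eventually_atTop.2 ⟨M₀, fun M hM => ?_⟩
    rw [← Nat.sub_add_cancel hM, pow_add, mul_assoc]
    exact (congrArg _ hM₀).trans (mul_zero _)
  filter_upwards [(e y).support.eventually_all.2 fun i _ => hi i] with M hM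
  rw [← (TensorProduct.equivFinsuppOfBasisRight b).symm_apply_apply y,
    TensorProduct.equivFinsuppOfBasisRight_symm_apply, Finsupp.sum, Finset.smul_sum]
  refine Finset.sum_eq_zero fun i hi' => ?_
  rw [TensorProduct.smul_tmul', smul_eq_mul, hM i hi', TensorProduct.zero_tmul]

/-- Matrices over a localisation have lifts after multiplication by a large power. -/
theorem eventually_lift {l m : Type*} [Finite l] [Finite m] (t : A)
    (x : Matrix l m (Localization.Away t ⊗[k] B)) :
    ∀ᶠ N in atTop, ∃ G : Matrix l m (A ⊗[k] B),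
      G.map (Datum.chartMap B (toAway k t)) = toAway k t (t ^ N) • x := by
  filter_upwards [eventually_all.2 fun i => eventually_all.2 fun j =>
    exists_pow_smul_eq_image t (x i j)] with N hN
  choose G hG using hN
  exact ⟨Matrix.of G, Matrix.ext hG⟩

/-- Matrices with the same image over a localisation agree up to a large power. -/
theorem eventually_eq {l m : Type*} [Finite l] [Finite m] (t : A)
    {G H : Matrix l m (A ⊗[k] B)}
    (h : G.map (Datum.chartMap B (toAway k t)) = H.map (Datum.chartMap B (toAway k t))) :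
    ∀ᶠ M in atTop, t ^ M • G = t ^ M • H := by
  filter_upwards [eventually_all.2 fun i => eventually_all.2 fun j =>
    eventually_pow_smul_eq_zero t (G i j - H i j)
      (by rw [map_sub, sub_eq_zero]; exact congrFun (congrFun h i) j)] with M hM
  refine Matrix.ext fun i j => ?_
  have := hM i j
  rw [smul_sub, sub_eq_zero] at this
  exact this

/-- A lift pushed to an algebra under the localisation. -/
theorem lift_push {l m : Type*} {t : A} {N : ℕ} {G : Matrix l m (A ⊗[k] B)}
    {x : Matrix l m (Localization.Away t ⊗[k] B)}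
    (h : G.map (Datum.chartMap B (toAway k t)) = toAway k t (t ^ N) • x)
    (φ : A →ₐ[k] A') (q : Localization.Away t →ₐ[k] A') (hq : q.comp (toAway k t) = φ) :
    G.map (Datum.chartMap B φ) = φ (t ^ N) • x.map (Datum.chartMap B q) := by
  subst hq
  rw [← map_chartMap_comp, h, map_chartMap_smul]
  rfl

theorem lift_smul {l m : Type*} {t : A} {N : ℕ} {G : Matrix l m (A ⊗[k] B)}
    {x : Matrix l m (Localization.Away t ⊗[k] B)}
    (h : G.map (Datum.chartMap B (toAway k t)) = toAway k t (t ^ N) • x) (M : ℕ) :
    (t ^ M • G).map (Datum.chartMap B (toAway k t)) = toAway k t (t ^ (N + M)) • x := by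
  rw [map_chartMap_smul, h, smul_smul, ← map_mul, ← pow_add, add_comm M]

variable {ι : Type} [Fintype ι] (r : ι → A)

theorem exists_sum_pow (hr : Ideal.span (Set.range r) = ⊤) (N : ℕ) :
    ∃ c : ι → A, ∑ a, c a * r a ^ N = 1 := by
  have h : Ideal.span (Set.range fun a => r a ^ N) = ⊤ := by
    have := Ideal.span_pow_eq_top (Set.range r) hr N
    rwa [← Set.range_comp] at this
  exact Ideal.mem_span_range_iff_exists_fun.1 (h ▸ Submodule.mem_top : (1 : A) ∈ _)

/-- Matrices over the localisations agreeing on overlaps glue. -/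
theorem exists_glue_matrix (hr : Ideal.span (Set.range r) = ⊤) {l m : Type*} [Finite l] [Finite m]
    (x : ∀ a, Matrix l m (Localization.Away (r a) ⊗[k] B))
    (hx : ∀ (a b : ι) (A' : Type u) [CommRing A'] [Algebra k A']
      (f : Localization.Away (r a) →ₐ[k] A') (g : Localization.Away (r b) →ₐ[k] A'),
        f.comp (toAway k (r a)) = g.comp (toAway k (r b)) →
        (x a).map (Datum.chartMap B f) = (x b).map (Datum.chartMap B g)) :
    ∃ y : Matrix l m (A ⊗[k] B), ∀ a, y.map (Datum.chartMap B (toAway k (r a))) = x a := by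
  obtain ⟨N, hN⟩ := (eventually_all.2 fun a => eventually_lift (r a) (x a)).exists
  choose G hG using hN
  obtain ⟨M, hM⟩ := (eventually_all.2 fun a => eventually_all.2 fun b =>
    eventually_eq (r a * r b) (G := r b ^ N • G a) (H := r a ^ N • G b) (by
      have fa := awayLE_comp (k := k) (Dvd.intro (r b) rfl : r a ∣ r a * r b)
      have fb := awayLE_comp (k := k) (Dvd.intro_left (r a) rfl : r b ∣ r a * r b)
      rw [map_chartMap_smul, map_chartMap_smul, lift_push (hG a) _ _ fa, lift_push (hG b) _ _ fb,
        smul_smul, smul_smul, hx a b _ _ _ (fa.trans fb.symm)]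
      exact congrArg (fun z => z • _) (mul_comm _ _))).exists
  let G' : ι → Matrix l m (A ⊗[k] B) := fun a => r a ^ M • G a
  have key : ∀ a b, r b ^ (N + M) • G' a = r a ^ (N + M) • G' b := fun a b => by
    have h := hM a b
    simp only [smul_smul] at h
    simp only [G', smul_smul]
    convert h using 2 <;> ring
  obtain ⟨c, hc⟩ := exists_sum_pow r hr (N + M)
  refine ⟨∑ b, c b • G' b, fun a => ?_⟩
  have hu : IsUnit (toAway k (r a) (r a ^ (N + M))) := by
    rw [map_pow]; exact (isUnit_toAway_of_dvd dvd_rfl).pow _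
  have h1 : r a ^ (N + M) • (∑ b, c b • G' b) = G' a := by
    rw [Finset.smul_sum]
    simp only [smul_comm (r a ^ (N + M)) (c _), ← key a]
    simp only [smul_smul, ← Finset.sum_smul, hc, one_smul]
  have h2 := congrArg (fun M => M.map (Datum.chartMap B (toAway k (r a)))) h1
  simp only [map_chartMap_smul] at h2
  rw [show (G' a).map _ = _ from map_chartMap_smul _ _ _, hG a, smul_smul, ← map_mul, ← pow_add,
    add_comm M N] at h2
  exact hu.smul_left_cancel.1 h2

/-- Matrices agreeing over the localisations are equal. -/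
theorem matrix_ext_away (hr : Ideal.span (Set.range r) = ⊤) {l m : Type*} [Finite l] [Finite m]
    {G H : Matrix l m (A ⊗[k] B)}
    (h : ∀ a, G.map (Datum.chartMap B (toAway k (r a))) = H.map (Datum.chartMap B (toAway k (r a)))) :
    G = H := by
  obtain ⟨M, hM⟩ := (eventually_all.2 fun a => eventually_eq (r a) (h a)).exists
  obtain ⟨c, hc⟩ := exists_sum_pow r hr M
  calc G = ∑ a, c a • (r a ^ M • G) := by
        simp only [smul_smul, ← Finset.sum_smul, hc, one_smul]
    _ = ∑ a, c a • (r a ^ M • H) := by simp only [hM]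
    _ = H := by simp only [smul_smul, ← Finset.sum_smul, hc, one_smul]

/-- The block matrix with the rows of the block `(a, b)` weighted by `c a`. -/
def blk {R : Type*} [SMul A R] {m : ℕ} (c : Fin m → A) {p q : Fin m → ℕ}
    (M : ∀ a b, Matrix (Fin (p a)) (Fin (q b)) R) :
    Matrix (Fin (∑ a, p a)) (Fin (∑ b, q b)) R :=
  fun i j => c (finSigmaFinEquiv.symm i).1 •
    M (finSigmaFinEquiv.symm i).1 (finSigmaFinEquiv.symm j).1 (finSigmaFinEquiv.symm i).2
      (finSigmaFinEquiv.symm j).2

/-- A row of blocks. -/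
def hrow {R : Type*} {m : ℕ} {p q : Fin m → ℕ} (M : ∀ a b, Matrix (Fin (p a)) (Fin (q b)) R)
    (a : Fin m) : Matrix (Fin (p a)) (Fin (∑ b, q b)) R :=
  fun i j => M a (finSigmaFinEquiv.symm j).1 i (finSigmaFinEquiv.symm j).2

/-- A weighted column of blocks. -/
def vcol {R : Type*} [SMul A R] {m : ℕ} (c : Fin m → A) {p q : Fin m → ℕ}
    (M : ∀ a b, Matrix (Fin (p a)) (Fin (q b)) R) (b : Fin m) :
    Matrix (Fin (∑ a, p a)) (Fin (q b)) R :=
  fun i j => c (finSigmaFinEquiv.symm i).1 •
    M (finSigmaFinEquiv.symm i).1 b (finSigmaFinEquiv.symm i).2 j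

variable {R : Type*} [CommRing R] [Algebra A R] {m : ℕ} {c s : Fin m → A} {p q o : Fin m → ℕ}
  {M : ∀ a b, Matrix (Fin (p a)) (Fin (q b)) R} {M' : ∀ a b, Matrix (Fin (q a)) (Fin (o b)) R}
  {M'' : ∀ a b, Matrix (Fin (p a)) (Fin (o b)) R}

theorem sum_blocks (hmul : ∀ a b b', M a b * M' b b' = s b • M'' a b')
    (hc : ∑ b, c b * s b = 1) (a b' : Fin m) (i : Fin (p a)) (j : Fin (o b')) :
    ∑ t : Fin (∑ b, q b), M a (finSigmaFinEquiv.symm t).1 i (finSigmaFinEquiv.symm t).2 *
      (c (finSigmaFinEquiv.symm t).1 •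
        M' (finSigmaFinEquiv.symm t).1 b' (finSigmaFinEquiv.symm t).2 j) = M'' a b' i j := by
  rw [Equiv.sum_comp (finSigmaFinEquiv (n := q)).symm
    (fun t : (b : Fin m) × Fin (q b) => M a t.1 i t.2 * (c t.1 • M' t.1 b' t.2 j)),
    Fintype.sum_sigma]
  have h : ∀ b, ∑ z, M a b i z * (c b • M' b b' z j) = (c b * s b) • M'' a b' i j := fun b => by
    simp only [mul_smul_comm, ← Finset.smul_sum]
    rw [mul_smul]
    exact congrArg (c b • ·) (congrFun (congrFun (hmul a b b') i) j)
  simp only [h, ← Finset.sum_smul, hc, one_smul]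

theorem blk_mul (hmul : ∀ a b b', M a b * M' b b' = s b • M'' a b') (hc : ∑ b, c b * s b = 1) :
    blk c M * blk c M' = blk c M'' := by
  refine Matrix.ext fun i j => ?_
  simp only [Matrix.mul_apply, blk, smul_mul_assoc, ← Finset.smul_sum]
  exact congrArg _ (sum_blocks hmul hc _ _ _ _)

theorem hrow_mul_blk (hmul : ∀ a b b', M a b * M' b b' = s b • M'' a b')
    (hc : ∑ b, c b * s b = 1) (a : Fin m) : hrow M a * blk c M' = hrow M'' a :=
  Matrix.ext fun i j => by
    simp only [Matrix.mul_apply, blk, hrow]
    exact sum_blocks hmul hc _ _ _ _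

theorem hrow_mul_vcol (hmul : ∀ a b b', M a b * M' b b' = s b • M'' a b')
    (hc : ∑ b, c b * s b = 1) (a b' : Fin m) : hrow M a * vcol c M' b' = M'' a b' :=
  Matrix.ext fun i j => by
    simp only [Matrix.mul_apply, vcol, hrow]
    exact sum_blocks hmul hc _ _ _ _

theorem vcol_mul_hrow (hmul : ∀ a b b', M a b * M' b b' = s b • M'' a b') (b : Fin m) :
    vcol c M b * hrow M' b = s b • blk c M'' := by
  refine Matrix.ext fun i j => ?_
  simp only [Matrix.mul_apply, vcol, hrow, smul_mul_assoc, ← Finset.smul_sum, Matrix.smul_apply,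
    blk]
  rw [smul_comm (s b)]
  exact congrArg _ (congrFun (congrFun (hmul _ b _) _) _)

theorem mul_hrow (hmul : ∀ a b b', M a b * M' b b' = s b • M'' a b') (a : Fin m) :
    M a a * hrow M' a = s a • hrow M'' a :=
  Matrix.ext fun i j => by
    simp only [Matrix.mul_apply, hrow, Matrix.smul_apply]
    exact congrFun (congrFun (hmul a a _) i) _

theorem trace_blk {M : ∀ a b, Matrix (Fin (p a)) (Fin (p b)) R}
    (htr : ∀ a, (M a a).trace = algebraMap A R (s a)) (hc : ∑ b, c b * s b = 1) :
    (blk c M).trace = 1 := by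
  simp only [Matrix.trace, Matrix.diag_apply, blk]
  rw [Equiv.sum_comp (finSigmaFinEquiv (n := p)).symm
    (fun t : (b : Fin m) × Fin (p b) => c t.1 • M t.1 t.1 t.2 t.2), Fintype.sum_sigma]
  have h : ∀ b, ∑ z, c b • M b b z z = algebraMap A R (c b * s b) := fun b => by
    rw [← Finset.smul_sum, map_mul, ← htr, Algebra.smul_def]
    rfl
  simp only [h, ← map_sum, hc, map_one]

theorem minors_blk {M : ∀ a b, Matrix (Fin (p a)) (Fin (p b)) R}
    (hmin : ∀ a b a' b' i j i' j', M a b i j * M a' b' i' j' = M a b' i j' * M a' b i' j)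
    (i j l n : Fin (∑ a, p a)) :
    blk c M i j * blk c M l n = blk c M i n * blk c M l j := by
  simp only [blk, smul_mul_smul_comm, hmin]

end FLTAgent.PicScheme
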