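import Fermat.Agent.PicScheme.Sheaf

/-!
# The sheaf of classes of degree zero
-/

set_option autoImplicit false
set_option linter.checkUnivs false

noncomputable section

universe u

open TensorProduct Matrix

namespace FLTAgent.PicScheme

variable {k : Type u} [Field k] {X : Charts k} {A A' : Type u}
  [CommRing A] [Algebra k A] [CommRing A'] [Algebra k A']

open Datum

/-- Isomorphisms of rigidifiable data given locally glue. -/
theorem nonempty_iso_of_local (hX : HasConst X) {m : ℕ} (r : Fin m → A)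
    (hr : Ideal.span (Set.range r) = ⊤) {L L' : Datum X A} (ρ : Rig L) (ρ' : Rig L')
    (h : ∀ a, Nonempty (Iso (L.map (toAway k (r a))) (L'.map (toAway k (r a))))) :
    Nonempty (Iso L L') := by
  have φ : ∀ a, RigIso (ρ.map (toAway k (r a))) (ρ'.map (toAway k (r a))) := fun a =>
    ((h a).some.exists_rigIso _ _).some
  have agree : ∀ (a b : Fin m) (A' : Type u) [CommRing A'] [Algebra k A']
      (f : Localization.Away (r a) →ₐ[k] A') (g : Localization.Away (r b) →ₐ[k] A'),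
      f.comp (toAway k (r a)) = g.comp (toAway k (r b)) →
        ((φ a).hom.a₁.map (chartMap X.B₁ f) = (φ b).hom.a₁.map (chartMap X.B₁ g)) ∧
        ((φ a).hom.a₂.map (chartMap X.B₂ f) = (φ b).hom.a₂.map (chartMap X.B₂ g)) ∧
        ((φ a).inv.a₁.map (chartMap X.B₁ f) = (φ b).inv.a₁.map (chartMap X.B₁ g)) ∧
        ((φ a).inv.a₂.map (chartMap X.B₂ f) = (φ b).inv.a₂.map (chartMap X.B₂ g)) := by
    intro a b A' _ _ f g hfg
    have h1 := RigIso.hom_eq hX ((φ a).push f rfl rfl) ((φ b).push g hfg.symm hfg.symm)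
    have h2 := RigIso.hom_eq hX (((φ a).push f rfl rfl).symm) (((φ b).push g hfg.symm hfg.symm).symm)
    exact ⟨congrArg Mor.a₁ h1, congrArg Mor.a₂ h1, congrArg Mor.a₁ h2, congrArg Mor.a₂ h2⟩
  obtain ⟨a₁, ha₁⟩ := exists_glue_matrix r hr (B := X.B₁) (l := Fin L'.n₁) (m := Fin L.n₁)
    (fun a => (φ a).hom.a₁) fun a b A' _ _ f g hfg => (agree a b A' f g hfg).1
  obtain ⟨a₂, ha₂⟩ := exists_glue_matrix r hr (B := X.B₂) (l := Fin L'.n₂) (m := Fin L.n₂)
    (fun a => (φ a).hom.a₂) fun a b A' _ _ f g hfg => (agree a b A' f g hfg).2.1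
  obtain ⟨b₁, hb₁⟩ := exists_glue_matrix r hr (B := X.B₁) (l := Fin L.n₁) (m := Fin L'.n₁)
    (fun a => (φ a).inv.a₁) fun a b A' _ _ f g hfg => (agree a b A' f g hfg).2.2.1
  obtain ⟨b₂, hb₂⟩ := exists_glue_matrix r hr (B := X.B₂) (l := Fin L.n₂) (m := Fin L'.n₂)
    (fun a => (φ a).inv.a₂) fun a b A' _ _ f g hfg => (agree a b A' f g hfg).2.2.2
  refine ⟨⟨a₁, b₁, a₂, b₂, matrix_ext_away r hr fun a => ?_, matrix_ext_away r hr fun a => ?_,
    matrix_ext_away r hr fun a => ?_, matrix_ext_away r hr fun a => ?_,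
    matrix_ext_away r hr fun a => ?_⟩⟩
  · rw [Matrix.map_mul, ha₁, hb₁]; exact (φ a).toIso.ab₁
  · rw [Matrix.map_mul, ha₁, hb₁]; exact (φ a).toIso.ba₁
  · rw [Matrix.map_mul, ha₂, hb₂]; exact (φ a).toIso.ab₂
  · rw [Matrix.map_mul, ha₂, hb₂]; exact (φ a).toIso.ba₂
  · rw [Matrix.map_mul, Matrix.map_mul, Matrix.map_mul, map_chartMap_res₁, map_chartMap_res₁,
      map_chartMap_res₂, ha₁, ha₂]
    exact (φ a).toIso.compat

theorem IsDegZero.of_map_eq {L : Datum X A} (h : L.IsDegZero) (f : A →ₐ[k] A') :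
    (L.map f).IsDegZero := fun K _ _ _ φ => by
  rw [← Datum.map_comp]
  exact h K (φ.comp f)

theorem IsDegZero.congr_iso {L L' : Datum X A} (e : Iso L L') (h : L.IsDegZero) : L'.IsDegZero :=
  fun K _ _ _ φ => (Degree.chi_eq_of_iso (e.map φ)).symm.trans (h K φ)

theorem Cls.isZero_mk {L : RigDatum X A} :
    Cls.IsZero (Quot.mk _ L : Cls X A) ↔ L.1.IsDegZero :=
  ⟨fun ⟨_, h, hd⟩ => (Cls.mk_eq_iff.1 h).elim fun e => IsDegZero.congr_iso e hd,
    fun h => ⟨L, rfl, h⟩⟩

theorem Cls.IsZero.map {x : Cls X A} (h : x.IsZero) (f : A →ₐ[k] A') : (Cls.map f x).IsZero := by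
  obtain ⟨L, rfl, hd⟩ := h
  exact Cls.isZero_mk.2 (IsDegZero.of_map_eq hd f)

variable (X) in
/-- The functor of classes. -/
def clsFun : AlgFun k where
  obj A _ _ := Cls X A
  map f := Cls.map f
  map_id x := Cls.map_id x
  map_comp f g x := Cls.map_comp f g x

variable (X) in
/-- The functor of classes of degree zero. -/
def zeroFun : AlgFun k where
  obj A _ _ := {x : Cls X A // x.IsZero}
  map f x := ⟨Cls.map f x.1, x.2.map f⟩
  map_id x := Subtype.ext (Cls.map_id x.1)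
  map_comp f g x := Subtype.ext (Cls.map_comp f g x.1)

theorem cls_sep (hX : HasConst X) (n : ℕ) (r : Fin n → A) (hr : Ideal.span (Set.range r) = ⊤)
    (x y : Cls X A) (h : ∀ a, Cls.map (toAway k (r a)) x = Cls.map (toAway k (r a)) y) : x = y := by
  obtain ⟨L, rfl⟩ := Quot.exists_rep x
  obtain ⟨L', rfl⟩ := Quot.exists_rep y
  exact Cls.mk_eq_iff.2 (nonempty_iso_of_local hX r hr (isRigidifiable_iff.1 L.2).some
    (isRigidifiable_iff.1 L'.2).some fun a => Cls.mk_eq_iff.1 (h a))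

theorem cls_glue (hX : HasConst X) (n : ℕ) (r : Fin n → A) (hr : Ideal.span (Set.range r) = ⊤)
    (x : ∀ a, Cls X (Localization.Away (r a)))
    (h : ∀ (a b : Fin n) (A' : Type u) [CommRing A'] [Algebra k A']
      (f : Localization.Away (r a) →ₐ[k] A') (g : Localization.Away (r b) →ₐ[k] A'),
        f.comp (toAway k (r a)) = g.comp (toAway k (r b)) → Cls.map f (x a) = Cls.map g (x b)) :
    ∃ y, ∀ a, Cls.map (toAway k (r a)) y = x a := by
  choose L hL using fun a => Quot.exists_rep (x a)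
  let ρ := fun a => (isRigidifiable_iff.1 (L a).2).some
  have g : ∀ a b, RigIso ((ρ b).map (jR r a b)) ((ρ a).map (jL r a b)) := fun a b => by
    have e := h a b _ (jL r a b) (jR r a b)
      ((awayLE_comp _).trans (awayLE_comp _).symm)
    rw [← hL a, ← hL b] at e
    exact ((Cls.mk_eq_iff.1 e.symm).some.exists_rigIso _ _).some
  obtain ⟨D, hD, hiso⟩ := exists_glued hX r (fun a => (L a).1) ρ g hr
  exact ⟨Quot.mk _ ⟨D, hD⟩, fun a => (Quot.sound (hiso a)).trans (hL a)⟩

theorem isSheaf_clsFun (hX : HasConst X) : (clsFun X).IsSheaf :=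
  ⟨fun n r hr x y h => cls_sep hX n r hr x y h, fun n r hr x h => cls_glue hX n r hr x h⟩

theorem exists_not_mem_of_span {n : ℕ} (r : Fin n → A) (hr : Ideal.span (Set.range r) = ⊤)
    {K : Type u} [Field K] [Algebra k K] (φ : A →ₐ[k] K) : ∃ a, IsUnit (φ (r a)) := by
  by_contra hne
  simp only [not_exists, isUnit_iff_ne_zero, not_not] at hne
  have : Ideal.span (Set.range r) ≤ RingHom.ker φ.toRingHom :=
    Ideal.span_le.2 (by rintro _ ⟨a, rfl⟩; exact hne a)
  rw [hr] at this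
  exact one_ne_zero ((map_one φ.toRingHom).symm.trans (this (Submodule.mem_top : (1 : A) ∈ ⊤)))

/-- Degree zero is local on the base. -/
theorem isZero_of_local {n : ℕ} (r : Fin n → A) (hr : Ideal.span (Set.range r) = ⊤) (x : Cls X A)
    (h : ∀ a, (Cls.map (toAway k (r a)) x).IsZero) : x.IsZero := by
  obtain ⟨L, rfl⟩ := Quot.exists_rep x
  refine Cls.isZero_mk.2 fun K _ _ _ φ => ?_
  obtain ⟨a, ha⟩ := exists_not_mem_of_span r hr φ
  have hd := Cls.isZero_mk.1 (h a) K (awayTo φ ha)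
  rwa [← Datum.map_comp, awayTo_comp] at hd

theorem isSheaf_zeroFun (hX : HasConst X) : (zeroFun X).IsSheaf where
  sep n r hr x y h := Subtype.ext (cls_sep hX n r hr x.1 y.1 fun a => congrArg Subtype.val (h a))
  glue n r hr x h := by
    obtain ⟨y, hy⟩ := cls_glue hX n r hr (fun a => (x a).1)
      fun a b A' _ _ f g hfg => congrArg Subtype.val (h a b A' f g hfg)
    exact ⟨⟨y, isZero_of_local r hr y fun a => by rw [hy]; exact (x a).2⟩, fun a => Subtype.ext (hy a)⟩

end FLTAgent.PicScheme
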